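import Mathlib

/-!
# S41 / (W2b): centrality of the congruence kernel — abstract matrix part

`A` is any commutative ring, `N : A`.  `InGam N g` says that `g ∈ SL(2,A)` lies in the principal
congruence subgroup of level `N`.  A function `Ψ : SL(2,A) → H` (`H` an additive commutative group)
is *admissible* (`Adm N Ψ`) if it is additive on the congruence subgroup and kills every
`SL(2,A)`-conjugate of an upper unipotent matrix `u(x)` with `N ∣ x`.

Under the abstract unit hypothesis `UnitHyp N` (which holds for `A = ℤ[1/q]`, see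
`UnitHypothesis.lean`), every admissible `Ψ` is invariant under conjugation by all elementary
matrices, hence by the subgroup `E2 A` they generate (`Adm.conj_invariant`).

This is Serre's centrality step (Le problème des groupes de congruence pour SL2, §2) in the
hom-form of report #2691, written with matrices only (no Mennicke symbols).
-/

set_option autoImplicit false

namespace Fermat.Agent.S41.CSP

open Matrix

/-- `SL(2,A)`. -/
abbrev SL2 (A : Type*) [CommRing A] := Matrix.SpecialLinearGroup (Fin 2) A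

variable {A : Type*} [CommRing A]

/-- upper unipotent matrix `(1 x; 0 1)` -/
def uMat (x : A) : SL2 A :=
  ⟨!![1, x; 0, 1], by simp [Matrix.det_fin_two_of]⟩

/-- lower unipotent matrix `(1 0; x 1)` -/
def lMat (x : A) : SL2 A :=
  ⟨!![1, 0; x, 1], by simp [Matrix.det_fin_two_of]⟩

/-- diagonal matrix `(t 0; 0 ti)` with `t * ti = 1` -/
def hMat (t ti : A) (h : t * ti = 1) : SL2 A :=
  ⟨!![t, 0; 0, ti], by simp [Matrix.det_fin_two_of, h]⟩

/-- the Weyl element `(0 -1; 1 0)` -/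
def wMat : SL2 A :=
  ⟨!![0, -1; 1, 0], by simp [Matrix.det_fin_two_of]⟩

theorem val_mul (g h : SL2 A) : (g * h).1 = g.1 * h.1 := rfl

theorem val_inv (g : SL2 A) : (g⁻¹).1 = !![g.1 1 1, -g.1 0 1; -g.1 1 0, g.1 0 0] := by
  rw [Matrix.SpecialLinearGroup.coe_inv, Matrix.adjugate_fin_two]

theorem val_one : (1 : SL2 A).1 = 1 := rfl

theorem uMat_val (x : A) : (uMat x).1 = !![1, x; 0, 1] := rfl
theorem lMat_val (x : A) : (lMat x).1 = !![1, 0; x, 1] := rfl
theorem hMat_val (t ti : A) (h : t * ti = 1) : (hMat t ti h).1 = !![t, 0; 0, ti] := rfl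
theorem wMat_val : (wMat : SL2 A).1 = !![0, -1; 1, 0] := rfl

theorem sl2_ext {g h : SL2 A} (h00 : g.1 0 0 = h.1 0 0) (h01 : g.1 0 1 = h.1 0 1)
    (h10 : g.1 1 0 = h.1 1 0) (h11 : g.1 1 1 = h.1 1 1) : g = h := by
  apply Subtype.ext
  ext i j
  fin_cases i <;> fin_cases j <;> assumption

theorem det_eq (g : SL2 A) : g.1 0 0 * g.1 1 1 - g.1 0 1 * g.1 1 0 = 1 := by
  have h := g.2
  rw [Matrix.det_fin_two] at h
  exact h

theorem mul_00 (g h : SL2 A) : (g * h).1 0 0 = g.1 0 0 * h.1 0 0 + g.1 0 1 * h.1 1 0 := by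
  rw [val_mul, Matrix.mul_apply, Fin.sum_univ_two]
theorem mul_01 (g h : SL2 A) : (g * h).1 0 1 = g.1 0 0 * h.1 0 1 + g.1 0 1 * h.1 1 1 := by
  rw [val_mul, Matrix.mul_apply, Fin.sum_univ_two]
theorem mul_10 (g h : SL2 A) : (g * h).1 1 0 = g.1 1 0 * h.1 0 0 + g.1 1 1 * h.1 1 0 := by
  rw [val_mul, Matrix.mul_apply, Fin.sum_univ_two]
theorem mul_11 (g h : SL2 A) : (g * h).1 1 1 = g.1 1 0 * h.1 0 1 + g.1 1 1 * h.1 1 1 := by
  rw [val_mul, Matrix.mul_apply, Fin.sum_univ_two]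

theorem inv_00 (g : SL2 A) : (g⁻¹).1 0 0 = g.1 1 1 := by rw [val_inv]; rfl
theorem inv_01 (g : SL2 A) : (g⁻¹).1 0 1 = -g.1 0 1 := by rw [val_inv]; rfl
theorem inv_10 (g : SL2 A) : (g⁻¹).1 1 0 = -g.1 1 0 := by rw [val_inv]; rfl
theorem inv_11 (g : SL2 A) : (g⁻¹).1 1 1 = g.1 0 0 := by rw [val_inv]; rfl

theorem uMat_00 (x : A) : (uMat x).1 0 0 = 1 := rfl
theorem uMat_01 (x : A) : (uMat x).1 0 1 = x := rfl
theorem uMat_10 (x : A) : (uMat x).1 1 0 = 0 := rfl
theorem uMat_11 (x : A) : (uMat x).1 1 1 = 1 := rfl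
theorem lMat_00 (x : A) : (lMat x).1 0 0 = 1 := rfl
theorem lMat_01 (x : A) : (lMat x).1 0 1 = 0 := rfl
theorem lMat_10 (x : A) : (lMat x).1 1 0 = x := rfl
theorem lMat_11 (x : A) : (lMat x).1 1 1 = 1 := rfl
theorem hMat_00 (t ti : A) (h : t * ti = 1) : (hMat t ti h).1 0 0 = t := rfl
theorem hMat_01 (t ti : A) (h : t * ti = 1) : (hMat t ti h).1 0 1 = 0 := rfl
theorem hMat_10 (t ti : A) (h : t * ti = 1) : (hMat t ti h).1 1 0 = 0 := rfl
theorem hMat_11 (t ti : A) (h : t * ti = 1) : (hMat t ti h).1 1 1 = ti := rfl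
theorem wMat_00 : (wMat : SL2 A).1 0 0 = 0 := rfl
theorem wMat_01 : (wMat : SL2 A).1 0 1 = -1 := rfl
theorem wMat_10 : (wMat : SL2 A).1 1 0 = 1 := rfl
theorem wMat_11 : (wMat : SL2 A).1 1 1 = 0 := rfl

/-- all entry formulas in one statement: `simp only [entries]` computes the entries of any word
in the elementary matrices -/
theorem entries :
    (∀ g h : SL2 A, (g * h).1 0 0 = g.1 0 0 * h.1 0 0 + g.1 0 1 * h.1 1 0) ∧
    (∀ g h : SL2 A, (g * h).1 0 1 = g.1 0 0 * h.1 0 1 + g.1 0 1 * h.1 1 1) ∧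
    (∀ g h : SL2 A, (g * h).1 1 0 = g.1 1 0 * h.1 0 0 + g.1 1 1 * h.1 1 0) ∧
    (∀ g h : SL2 A, (g * h).1 1 1 = g.1 1 0 * h.1 0 1 + g.1 1 1 * h.1 1 1) ∧
    (∀ g : SL2 A, (g⁻¹).1 0 0 = g.1 1 1) ∧ (∀ g : SL2 A, (g⁻¹).1 0 1 = -g.1 0 1) ∧
    (∀ g : SL2 A, (g⁻¹).1 1 0 = -g.1 1 0) ∧ (∀ g : SL2 A, (g⁻¹).1 1 1 = g.1 0 0) ∧
    (∀ x : A, (uMat x).1 0 0 = 1) ∧ (∀ x : A, (uMat x).1 0 1 = x) ∧
    (∀ x : A, (uMat x).1 1 0 = 0) ∧ (∀ x : A, (uMat x).1 1 1 = 1) ∧
    (∀ x : A, (lMat x).1 0 0 = 1) ∧ (∀ x : A, (lMat x).1 0 1 = 0) ∧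
    (∀ x : A, (lMat x).1 1 0 = x) ∧ (∀ x : A, (lMat x).1 1 1 = 1) ∧
    (∀ (t ti : A) (h : t * ti = 1), (hMat t ti h).1 0 0 = t) ∧
    (∀ (t ti : A) (h : t * ti = 1), (hMat t ti h).1 0 1 = 0) ∧
    (∀ (t ti : A) (h : t * ti = 1), (hMat t ti h).1 1 0 = 0) ∧
    (∀ (t ti : A) (h : t * ti = 1), (hMat t ti h).1 1 1 = ti) ∧
    ((wMat : SL2 A).1 0 0 = 0) ∧ ((wMat : SL2 A).1 0 1 = -1) ∧
    ((wMat : SL2 A).1 1 0 = 1) ∧ ((wMat : SL2 A).1 1 1 = 0) ∧
    ((1 : SL2 A).1 0 0 = 1) ∧ ((1 : SL2 A).1 0 1 = 0) ∧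
    ((1 : SL2 A).1 1 0 = 0) ∧ ((1 : SL2 A).1 1 1 = 1) :=
  ⟨mul_00, mul_01, mul_10, mul_11, inv_00, inv_01, inv_10, inv_11,
    uMat_00, uMat_01, uMat_10, uMat_11, lMat_00, lMat_01, lMat_10, lMat_11,
    hMat_00, hMat_01, hMat_10, hMat_11, wMat_00, wMat_01, wMat_10, wMat_11,
    rfl, rfl, rfl, rfl⟩

theorem lMat_eq_conj (x : A) : lMat x = wMat * uMat (-x) * wMat⁻¹ := by
  apply sl2_ext <;> simp only [entries] <;> ring

theorem w_l_winv (x : A) : wMat * lMat x * wMat⁻¹ = uMat (-x) := by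
  apply sl2_ext <;> simp only [entries] <;> ring

theorem lMat_neg_inv (s : A) : (lMat (-s))⁻¹ = lMat s := by
  apply sl2_ext <;> simp only [entries] <;> ring

theorem uMat_neg_inv (s : A) : (uMat (-s))⁻¹ = uMat s := by
  apply sl2_ext <;> simp only [entries] <;> ring

theorem uMat_inv (s : A) : (uMat s)⁻¹ = uMat (-s) := by
  apply sl2_ext <;> simp only [entries] <;> ring

theorem lMat_inv (s : A) : (lMat s)⁻¹ = lMat (-s) := by
  apply sl2_ext <;> simp only [entries] <;> ring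

theorem lMat_mul_neg (s : A) : lMat s * lMat (-s) = 1 := by
  apply sl2_ext <;> simp only [entries] <;> ring

theorem hMat_eq (t ti : A) (h : t * ti = 1) :
    hMat t ti h = lMat (-(t - 1) * ti) * (uMat 1 * lMat (t - 1) * (uMat 1)⁻¹) *
      uMat ((t - 1) * ti) := by
  apply sl2_ext <;> simp only [entries]
  · ring
  · linear_combination (-(t - 1)) * h
  · linear_combination (t - 1) * h
  · linear_combination (2 - t + (t - 1) ^ 2 * ti) * h

/-! ### The principal congruence subgroup -/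

/-- `g` lies in the principal congruence subgroup of level `N` -/
def InGam (N : A) (g : SL2 A) : Prop :=
  N ∣ g.1 0 0 - 1 ∧ N ∣ g.1 0 1 ∧ N ∣ g.1 1 0 ∧ N ∣ g.1 1 1 - 1

theorem inGam_iff {N : A} {g : SL2 A} :
    InGam N g ↔ ∃ p q r s : A, g.1 0 0 = 1 + N * p ∧ g.1 0 1 = N * q ∧ g.1 1 0 = N * r ∧
      g.1 1 1 = 1 + N * s := by
  constructor
  · rintro ⟨⟨p, hp⟩, ⟨q, hq⟩, ⟨r, hr⟩, ⟨s, hs⟩⟩
    exact ⟨p, q, r, s, by linear_combination hp, hq, hr, by linear_combination hs⟩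
  · rintro ⟨p, q, r, s, hp, hq, hr, hs⟩
    exact ⟨⟨p, by linear_combination hp⟩, ⟨q, hq⟩, ⟨r, hr⟩, ⟨s, by linear_combination hs⟩⟩

theorem InGam.one (N : A) : InGam N (1 : SL2 A) :=
  inGam_iff.2 ⟨0, 0, 0, 0, by simp only [entries]; ring, by simp only [entries]; ring,
    by simp only [entries]; ring, by simp only [entries]; ring⟩

theorem InGam.mul {N : A} {g h : SL2 A} (hg : InGam N g) (hh : InGam N h) : InGam N (g * h) := by
  obtain ⟨p, q, r, s, hp, hq, hr, hs⟩ := inGam_iff.1 hg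
  obtain ⟨p', q', r', s', hp', hq', hr', hs'⟩ := inGam_iff.1 hh
  refine inGam_iff.2 ⟨p + p' + N * p * p' + N * q * r', q' + N * p * q' + q + N * q * s',
    r + N * r * p' + r' + N * s * r', N * r * q' + s + s' + N * s * s', ?_, ?_, ?_, ?_⟩ <;>
    simp only [entries, hp, hq, hr, hs, hp', hq', hr', hs'] <;> ring

theorem InGam.inv {N : A} {g : SL2 A} (hg : InGam N g) : InGam N g⁻¹ := by
  obtain ⟨p, q, r, s, hp, hq, hr, hs⟩ := inGam_iff.1 hg
  refine inGam_iff.2 ⟨s, -q, -r, p, ?_, ?_, ?_, ?_⟩ <;>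
    simp only [entries, hp, hq, hr, hs] <;> ring

theorem InGam.conj {N : A} {γ : SL2 A} (hγ : InGam N γ) (g : SL2 A) :
    InGam N (g * γ * g⁻¹) := by
  obtain ⟨p, q, r, s, hp, hq, hr, hs⟩ := inGam_iff.1 hγ
  have hd := det_eq g
  refine inGam_iff.2
    ⟨g.1 0 0 * p * g.1 1 1 + g.1 0 1 * r * g.1 1 1 - g.1 0 0 * q * g.1 1 0
        - g.1 0 1 * s * g.1 1 0,
      -(g.1 0 0 * p * g.1 0 1) - g.1 0 1 * g.1 0 1 * r + g.1 0 0 * g.1 0 0 * q
        + g.1 0 1 * s * g.1 0 0,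
      g.1 1 0 * p * g.1 1 1 + g.1 1 1 * g.1 1 1 * r - g.1 1 0 * g.1 1 0 * q
        - g.1 1 1 * s * g.1 1 0,
      -(g.1 1 0 * p * g.1 0 1) - g.1 1 1 * r * g.1 0 1 + g.1 1 0 * q * g.1 0 0
        + g.1 1 1 * s * g.1 0 0, ?_, ?_, ?_, ?_⟩ <;>
    simp only [entries, hp, hq, hr, hs]
  · linear_combination hd
  · ring
  · ring
  · linear_combination hd

theorem inGam_uMat {N x : A} (hx : N ∣ x) : InGam N (uMat x) := by
  obtain ⟨k, rfl⟩ := hx
  exact inGam_iff.2 ⟨0, k, 0, 0, by simp only [entries]; ring, by simp only [entries],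
    by simp only [entries]; ring, by simp only [entries]; ring⟩

theorem inGam_lMat {N x : A} (hx : N ∣ x) : InGam N (lMat x) := by
  obtain ⟨k, rfl⟩ := hx
  exact inGam_iff.2 ⟨0, 0, k, 0, by simp only [entries]; ring, by simp only [entries]; ring,
    by simp only [entries], by simp only [entries]; ring⟩

theorem inGam_hMat {N t ti : A} (h : t * ti = 1) (ht : N ∣ t - 1) : InGam N (hMat t ti h) := by
  obtain ⟨k, hk⟩ := ht
  refine inGam_iff.2 ⟨k, 0, 0, -(ti * k), ?_, ?_, ?_, ?_⟩ <;> simp only [entries]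
  · linear_combination hk
  · ring
  · ring
  · linear_combination (-ti) * hk + h

/-! ### Admissible functions -/

variable {H : Type*} [AddCommGroup H]

/-- `Ψ` is additive on the congruence subgroup of level `N` and kills all conjugates of the
upper unipotent matrices of level `N`. -/
structure Adm (N : A) (Ψ : SL2 A → H) : Prop where
  add : ∀ x y : SL2 A, InGam N x → InGam N y → Ψ (x * y) = Ψ x + Ψ y
  unip : ∀ (g : SL2 A) (x : A), N ∣ x → Ψ (g * uMat x * g⁻¹) = 0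

namespace Adm

variable {N : A} {Ψ : SL2 A → H}

theorem map_one (hΨ : Adm N Ψ) : Ψ 1 = 0 := by
  have h := hΨ.add 1 1 (InGam.one N) (InGam.one N)
  rw [mul_one] at h
  exact left_eq_add.mp h

theorem map_uMat (hΨ : Adm N Ψ) {x : A} (hx : N ∣ x) : Ψ (uMat x) = 0 := by
  have h := hΨ.unip 1 x hx
  simpa using h

theorem conj_lMat_zero (hΨ : Adm N Ψ) (g : SL2 A) {x : A} (hx : N ∣ x) :
    Ψ (g * lMat x * g⁻¹) = 0 := by
  have h := hΨ.unip (g * wMat) (-x) ((dvd_neg).2 hx)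
  have e : g * lMat x * g⁻¹ = g * wMat * uMat (-x) * (g * wMat)⁻¹ := by
    rw [lMat_eq_conj]; group
  rw [e]; exact h

theorem map_lMat (hΨ : Adm N Ψ) {x : A} (hx : N ∣ x) : Ψ (lMat x) = 0 := by
  have h := hΨ.conj_lMat_zero 1 hx
  simpa using h

theorem map_hMat (hΨ : Adm N Ψ) {t ti : A} (h : t * ti = 1) (ht : N ∣ t - 1) :
    Ψ (hMat t ti h) = 0 := by
  have h1 : N ∣ -(t - 1) * ti := Dvd.dvd.mul_right ((dvd_neg).2 ht) ti
  have h2 : N ∣ (t - 1) * ti := Dvd.dvd.mul_right ht ti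
  have g1 : InGam N (lMat (-(t - 1) * ti)) := inGam_lMat h1
  have g2 : InGam N (uMat 1 * lMat (t - 1) * (uMat 1)⁻¹) := (inGam_lMat ht).conj _
  have g3 : InGam N (uMat ((t - 1) * ti)) := inGam_uMat h2
  rw [hMat_eq, hΨ.add _ _ (g1.mul g2) g3, hΨ.add _ _ g1 g2, hΨ.map_lMat h1,
    hΨ.conj_lMat_zero _ ht, hΨ.map_uMat h2]
  simp

/-- admissibility is stable under conjugating the argument -/
theorem conj (hΨ : Adm N Ψ) (g : SL2 A) : Adm N (fun γ => Ψ (g * γ * g⁻¹)) where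
  add x y hx hy := by
    have e : g * (x * y) * g⁻¹ = (g * x * g⁻¹) * (g * y * g⁻¹) := by group
    show Ψ (g * (x * y) * g⁻¹) = Ψ (g * x * g⁻¹) + Ψ (g * y * g⁻¹)
    rw [e]; exact hΨ.add _ _ (hx.conj g) (hy.conj g)
  unip g' x hx := by
    have e : g * (g' * uMat x * g'⁻¹) * g⁻¹ = (g * g') * uMat x * (g * g')⁻¹ := by group
    show Ψ (g * (g' * uMat x * g'⁻¹) * g⁻¹) = 0
    rw [e]; exact hΨ.unip _ x hx

/-- two elements of the congruence subgroup with the same first row have the same value -/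
theorem sameRow (hΨ : Adm N Ψ) {X Y : SL2 A} (hX : InGam N X) (hY : InGam N Y)
    (h0 : X.1 0 0 = Y.1 0 0) (h1 : X.1 0 1 = Y.1 0 1) : Ψ X = Ψ Y := by
  set w : A := Y.1 1 0 * X.1 1 1 - Y.1 1 1 * X.1 1 0 with hw
  have hdX := det_eq X
  have hdY := det_eq Y
  have e : Y = lMat w * X := by
    apply sl2_ext <;> simp only [entries]
    · rw [h0]; ring
    · rw [h1]; ring
    · rw [hw]; linear_combination (-Y.1 1 0) * hdX + X.1 1 0 * hdY + (X.1 1 0 * Y.1 1 1) * h0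
        - (X.1 1 0 * Y.1 1 0) * h1
    · rw [hw]; linear_combination (-Y.1 1 1) * hdX + X.1 1 1 * hdY + (X.1 1 1 * Y.1 1 1) * h0
        - (X.1 1 1 * Y.1 1 0) * h1
  have hwN : N ∣ w := by
    obtain ⟨_, _, hr, _⟩ := hX
    obtain ⟨_, _, hr', _⟩ := hY
    exact dvd_sub (Dvd.dvd.mul_right hr' _) (Dvd.dvd.mul_left hr _)
  rw [e, hΨ.add _ _ (inGam_lMat hwN) hX, hΨ.map_lMat hwN, zero_add]

end Adm

/-! ### The unit hypothesis and the centrality theorem -/

/-- The abstract unit hypothesis at level `N`: for every first row `(a, b)` of an element of the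
congruence subgroup and every `s`, one can move `b` inside its class mod `N a` to some `b1`
(still divisible by `N`) for which there is a unit `t ≡ 1 (mod N a)`, `t ≡ 1 (mod b1)`, with
`(t - 1) / b1 * a ≡ s (mod N)`.  For `A = ℤ[1/q]` see `UnitHypothesis.lean`. -/
def UnitHyp (N : A) : Prop :=
  ∀ γ : SL2 A, InGam N γ → ∀ s : A, ∃ b1 y t ti : A, t * ti = 1 ∧ N ∣ b1 ∧
    N * γ.1 0 0 ∣ b1 - γ.1 0 1 ∧ N * γ.1 0 0 ∣ t - 1 ∧ t - 1 = y * b1 ∧ N ∣ y * γ.1 0 0 - s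

namespace Adm

variable {N : A} {Ψ : SL2 A → H}

/-- **Centrality, lower unipotent case.** -/
theorem conj_lMat (hΨ : Adm N Ψ) (hH : UnitHyp N) {γ : SL2 A} (hγ : InGam N γ) (s : A) :
    Ψ (lMat (-s) * γ * lMat s) = Ψ γ := by
  obtain ⟨b1, y, t, ti, htt, hb1, ⟨x0, hx0⟩, ⟨k, hk⟩, hty, hys⟩ := hH γ hγ s
  -- notation
  set a : A := γ.1 0 0 with ha
  set b : A := γ.1 0 1 with hb
  -- the auxiliary parameters
  have hxN : N ∣ N * x0 := Dvd.intro _ rfl
  have hx2N : N ∣ b1 * N * k * ti * ti := ⟨b1 * k * ti * ti, by ring⟩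
  have hzN : N ∣ s - y * a := by
    have := (dvd_neg).2 hys
    rwa [neg_sub] at this
  have htN : N ∣ t - 1 := ⟨a * k, by rw [hk]; ring⟩
  -- the elements
  set γ1 : SL2 A := γ * uMat (N * x0) with hγ1def
  have hγ1 : InGam N γ1 := hγ.mul (inGam_uMat hxN)
  set γ2 : SL2 A := γ1 * hMat t ti htt * uMat (b1 * N * k * ti * ti) * lMat (s - y * a) with hγ2def
  have hγ2a : InGam N (γ1 * hMat t ti htt) := hγ1.mul (inGam_hMat htt htN)
  have hγ2b : InGam N (γ1 * hMat t ti htt * uMat (b1 * N * k * ti * ti)) :=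
    hγ2a.mul (inGam_uMat hx2N)
  have hγ2 : InGam N γ2 := hγ2b.mul (inGam_lMat hzN)
  set δ : SL2 A := lMat (-s) * γ1 * lMat s with hδdef
  have hδ : InGam N δ := by
    have := hγ1.conj (lMat (-s))
    rwa [lMat_neg_inv] at this
  -- values
  have v1 : Ψ γ1 = Ψ γ := by
    rw [hγ1def, hΨ.add _ _ hγ (inGam_uMat hxN), hΨ.map_uMat hxN, add_zero]
  have v2 : Ψ γ2 = Ψ γ1 := by
    rw [hγ2def, hΨ.add _ _ hγ2b (inGam_lMat hzN), hΨ.add _ _ hγ2a (inGam_uMat hx2N),
      hΨ.add _ _ hγ1 (inGam_hMat htt htN), hΨ.map_lMat hzN, hΨ.map_uMat hx2N,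
      hΨ.map_hMat htt htN]
    simp
  -- first rows of γ1
  have r0 : γ1.1 0 0 = a := by
    rw [hγ1def]; simp only [entries]; ring
  have r1 : γ1.1 0 1 = b1 := by
    rw [hγ1def]; simp only [entries]
    linear_combination (-1 : A) * hx0
  -- same first rows for γ2 and δ
  have hX : a * t * (b1 * N * k * ti * ti) + b1 * ti = b1 := by
    linear_combination (-(b1 * ti ^ 2 * t)) * hk + (b1 * (t * ti + 1 - ti)) * htt
  have s0 : δ.1 0 0 = γ2.1 0 0 := by
    rw [hδdef, hγ2def]; simp only [entries, r0, r1]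
    linear_combination (-(s - y * a)) * hX + (-a) * hty
  have s1 : δ.1 0 1 = γ2.1 0 1 := by
    rw [hδdef, hγ2def]; simp only [entries, r0, r1]
    linear_combination (-1 : A) * hX
  have v3 : Ψ δ = Ψ γ2 := hΨ.sameRow hδ hγ2 s0 s1
  -- relate δ to the conjugate of γ
  have hc : InGam N (lMat (-s) * γ * lMat s) := by
    have := hγ.conj (lMat (-s))
    rwa [lMat_neg_inv] at this
  have hcu : InGam N (lMat (-s) * uMat (N * x0) * lMat s) := by
    have := (inGam_uMat (N := N) hxN).conj (lMat (-s))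
    rwa [lMat_neg_inv] at this
  have e : δ = (lMat (-s) * γ * lMat s) * (lMat (-s) * uMat (N * x0) * lMat s) := by
    rw [hδdef, hγ1def]
    have : lMat s * lMat (-s) = (1 : SL2 A) := lMat_mul_neg s
    calc lMat (-s) * (γ * uMat (N * x0)) * lMat s
        = lMat (-s) * γ * 1 * uMat (N * x0) * lMat s := by group
      _ = lMat (-s) * γ * (lMat s * lMat (-s)) * uMat (N * x0) * lMat s := by rw [this]
      _ = _ := by group
  have v4 : Ψ δ = Ψ (lMat (-s) * γ * lMat s) := by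
    have hz : Ψ (lMat (-s) * uMat (N * x0) * lMat s) = 0 := by
      have := hΨ.unip (lMat (-s)) (N * x0) hxN
      rwa [lMat_neg_inv] at this
    rw [e, hΨ.add _ _ hc hcu, hz, add_zero]
  rw [← v4, v3, v2, v1]

/-- **Centrality, upper unipotent case** (from the lower case applied to the `w`-conjugate). -/
theorem conj_uMat (hΨ : Adm N Ψ) (hH : UnitHyp N) {γ : SL2 A} (hγ : InGam N γ) (s : A) :
    Ψ (uMat s * γ * uMat (-s)) = Ψ γ := by
  have hγ' : InGam N (wMat⁻¹ * γ * wMat) := by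
    have := hγ.conj (wMat⁻¹ : SL2 A)
    rwa [inv_inv] at this
  have h := (hΨ.conj wMat).conj_lMat hH hγ' s
  have e1 : wMat * (lMat (-s) * (wMat⁻¹ * γ * wMat) * lMat s) * wMat⁻¹ =
      (wMat * lMat (-s) * wMat⁻¹) * γ * (wMat * lMat s * wMat⁻¹) := by group
  have e2 : wMat * (wMat⁻¹ * γ * wMat) * wMat⁻¹ = γ := by group
  simp only [e1, e2, w_l_winv, neg_neg] at h
  exact h

end Adm

/-- the subgroup generated by the elementary matrices -/
def E2 (A : Type*) [CommRing A] : Subgroup (SL2 A) :=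
  Subgroup.closure (Set.range (uMat : A → SL2 A) ∪ Set.range (lMat : A → SL2 A))

/-- **Centrality of the congruence kernel (abstract form).**  Under the unit hypothesis, an
admissible function is invariant under conjugation by every product of elementary matrices. -/
theorem Adm.conj_invariant {N : A} {Ψ : SL2 A → H} (hΨ : Adm N Ψ) (hH : UnitHyp N)
    {g : SL2 A} (hg : g ∈ E2 A) : ∀ γ : SL2 A, InGam N γ → Ψ (g * γ * g⁻¹) = Ψ γ := by
  induction hg using Subgroup.closure_induction with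
  | mem x hx =>
    intro γ hγ
    rcases hx with ⟨s, rfl⟩ | ⟨s, rfl⟩
    · rw [uMat_inv]
      exact hΨ.conj_uMat hH hγ s
    · have := hΨ.conj_lMat hH hγ (-s)
      rw [neg_neg] at this
      rw [lMat_inv]
      exact this
  | one => intro γ _; simp
  | mul x y _ _ hx hy =>
    intro γ hγ
    have e : x * y * γ * (x * y)⁻¹ = x * (y * γ * y⁻¹) * x⁻¹ := by group
    rw [e, hx _ (hγ.conj y), hy _ hγ]
  | inv x _ hx =>
    intro γ hγ
    have h := hx (x⁻¹ * γ * x⁻¹⁻¹) (hγ.conj x⁻¹)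
    have e : x * (x⁻¹ * γ * x⁻¹⁻¹) * x⁻¹ = γ := by group
    rw [e] at h
    exact h.symm

end Fermat.Agent.S41.CSP
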