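import Mathlib

/-!
# S41 / (W2b) CSP: elementary generation of `SL(2, A)` for Euclidean-type rings
(volunteer leaf, branch only; Mathlib only)

`uMat x = !![1, x; 0, 1]`, `lMat x = !![1, 0; x, 1]`.  If `A` carries a size function
`ν : A → ℕ` with a division step (`∀ a b, b ≠ 0 → ∃ k, ν (a - k * b) < ν b`), then
`SL(2, A)` is generated by the `uMat x` and `lMat x`.
-/

set_option autoImplicit false

namespace Fermat.Agent.S41.CSP.ElemGen

open Matrix

variable {A : Type*} [CommRing A]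

/-- upper elementary matrix -/
def uMat (x : A) : SpecialLinearGroup (Fin 2) A :=
  ⟨!![1, x; 0, 1], by simp [Matrix.det_fin_two]⟩

/-- lower elementary matrix -/
def lMat (x : A) : SpecialLinearGroup (Fin 2) A :=
  ⟨!![1, 0; x, 1], by simp [Matrix.det_fin_two]⟩

/-- the subgroup generated by elementary matrices -/
def elemSubgroup (A : Type*) [CommRing A] : Subgroup (SpecialLinearGroup (Fin 2) A) :=
  Subgroup.closure (Set.range (uMat (A := A)) ∪ Set.range (lMat (A := A)))

theorem uMat_mem (x : A) : uMat x ∈ elemSubgroup A :=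
  Subgroup.subset_closure (Or.inl ⟨x, rfl⟩)

theorem lMat_mem (x : A) : lMat x ∈ elemSubgroup A :=
  Subgroup.subset_closure (Or.inr ⟨x, rfl⟩)

theorem uMat_coe (x : A) : (uMat x : Matrix (Fin 2) (Fin 2) A) = !![1, x; 0, 1] := rfl
theorem lMat_coe (x : A) : (lMat x : Matrix (Fin 2) (Fin 2) A) = !![1, 0; x, 1] := rfl

theorem det_eq (g : SpecialLinearGroup (Fin 2) A) :
    g.1 0 0 * g.1 1 1 - g.1 0 1 * g.1 1 0 = 1 := by
  have := g.2
  rwa [Matrix.det_fin_two] at this

omit [CommRing A] in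
theorem eq_of_entries {M M' : Matrix (Fin 2) (Fin 2) A} (h00 : M 0 0 = M' 0 0)
    (h01 : M 0 1 = M' 0 1) (h10 : M 1 0 = M' 1 0) (h11 : M 1 1 = M' 1 1) : M = M' := by
  ext i j
  fin_cases i <;> fin_cases j <;> assumption

omit [CommRing A] in
theorem mk_eq {a b c d a' b' c' d' : A} (h1 : a = a') (h2 : b = b') (h3 : c = c')
    (h4 : d = d') : !![a, b; c, d] = !![a', b'; c', d'] := by
  subst h1 h2 h3 h4; rfl

theorem sl_coe_inj {g g' : SpecialLinearGroup (Fin 2) A}
    (h : (g : Matrix (Fin 2) (Fin 2) A) = (g' : Matrix (Fin 2) (Fin 2) A)) : g = g' :=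
  Subtype.ext h

theorem sl_ext {g g' : SpecialLinearGroup (Fin 2) A} (h00 : g.1 0 0 = g'.1 0 0)
    (h01 : g.1 0 1 = g'.1 0 1) (h10 : g.1 1 0 = g'.1 1 0) (h11 : g.1 1 1 = g'.1 1 1) : g = g' :=
  Subtype.ext (eq_of_entries h00 h01 h10 h11)

/-- entries of `uMat x * g` -/
theorem uMat_mul_entries (x : A) (g : SpecialLinearGroup (Fin 2) A) :
    (uMat x * g).1 0 0 = g.1 0 0 + x * g.1 1 0 ∧ (uMat x * g).1 0 1 = g.1 0 1 + x * g.1 1 1 ∧
    (uMat x * g).1 1 0 = g.1 1 0 ∧ (uMat x * g).1 1 1 = g.1 1 1 := by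
  refine ⟨?_, ?_, ?_, ?_⟩ <;>
    simp [uMat_coe, Matrix.mul_apply, Fin.sum_univ_two]

/-- entries of `lMat x * g` -/
theorem lMat_mul_entries (x : A) (g : SpecialLinearGroup (Fin 2) A) :
    (lMat x * g).1 0 0 = g.1 0 0 ∧ (lMat x * g).1 0 1 = g.1 0 1 ∧
    (lMat x * g).1 1 0 = x * g.1 0 0 + g.1 1 0 ∧ (lMat x * g).1 1 1 = x * g.1 0 1 + g.1 1 1 := by
  refine ⟨?_, ?_, ?_, ?_⟩ <;>
    simp [lMat_coe, Matrix.mul_apply, Fin.sum_univ_two]

theorem mem_of_uMat_mul_mem {x : A} {g : SpecialLinearGroup (Fin 2) A}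
    (h : uMat x * g ∈ elemSubgroup A) : g ∈ elemSubgroup A := by
  have := (elemSubgroup A).mul_mem ((elemSubgroup A).inv_mem (uMat_mem x)) h
  simpa using this

theorem mem_of_lMat_mul_mem {x : A} {g : SpecialLinearGroup (Fin 2) A}
    (h : lMat x * g ∈ elemSubgroup A) : g ∈ elemSubgroup A := by
  have := (elemSubgroup A).mul_mem ((elemSubgroup A).inv_mem (lMat_mem x)) h
  simpa using this

/-- diagonal matrices `diag(a, d)`, `a * d = 1`, are products of elementary matrices -/
theorem diag_mem (a d : A) (h : a * d = 1) (g : SpecialLinearGroup (Fin 2) A)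
    (hg : (g : Matrix (Fin 2) (Fin 2) A) = !![a, 0; 0, d]) : g ∈ elemSubgroup A := by
  have key : g * (uMat 1 * lMat (-1) * uMat 1) = uMat a * lMat (-d) * uMat a := by
    apply sl_coe_inj
    simp only [Matrix.SpecialLinearGroup.coe_mul, hg, uMat_coe, lMat_coe, Matrix.mul_fin_two]
    apply mk_eq
    · linear_combination h
    · linear_combination a * h
    · ring
    · linear_combination h
  have hw : uMat (1 : A) * lMat (-1) * uMat 1 ∈ elemSubgroup A :=
    (elemSubgroup A).mul_mem ((elemSubgroup A).mul_mem (uMat_mem _) (lMat_mem _)) (uMat_mem _)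
  have hw' : uMat a * lMat (-d) * uMat a ∈ elemSubgroup A :=
    (elemSubgroup A).mul_mem ((elemSubgroup A).mul_mem (uMat_mem _) (lMat_mem _)) (uMat_mem _)
  have : g = uMat a * lMat (-d) * uMat a * (uMat 1 * lMat (-1) * uMat 1)⁻¹ := by
    rw [← key, mul_inv_cancel_right]
  rw [this]
  exact (elemSubgroup A).mul_mem hw' ((elemSubgroup A).inv_mem hw)

/-- upper triangular elements are products of elementary matrices -/
theorem mem_of_lower_left_zero (g : SpecialLinearGroup (Fin 2) A) (hc : g.1 1 0 = 0) :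
    g ∈ elemSubgroup A := by
  have hdet := det_eq g
  rw [hc, mul_zero, sub_zero] at hdet
  -- g = diag(a,d) * uMat (d * b)
  set a := g.1 0 0 with ha
  set b := g.1 0 1 with hb
  set d := g.1 1 1 with hd
  let D : SpecialLinearGroup (Fin 2) A := ⟨!![a, 0; 0, d], by simp [Matrix.det_fin_two, hdet]⟩
  have hDc : (D : Matrix (Fin 2) (Fin 2) A) = !![a, 0; 0, d] := rfl
  have hD : D ∈ elemSubgroup A := diag_mem a d hdet D rfl
  have key : g = D * uMat (d * b) := by
    apply sl_coe_inj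
    rw [Matrix.SpecialLinearGroup.coe_mul, hDc, uMat_coe, Matrix.mul_fin_two]
    conv_lhs => rw [Matrix.eta_fin_two g.1]
    apply mk_eq
    · rw [← ha]; ring
    · rw [← hb]; linear_combination (-b) * hdet
    · rw [hc]; ring
    · rw [← hd]; ring
  rw [key]
  exact (elemSubgroup A).mul_mem hD (uMat_mem _)

/-- **Abstract Euclid**: with a size function admitting a division step, `SL(2, A)` is generated
by elementary matrices. -/
theorem elemSubgroup_eq_top (ν : A → ℕ)
    (hdiv : ∀ a b : A, b ≠ 0 → ∃ k : A, ν (a - k * b) < ν b) :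
    elemSubgroup A = ⊤ := by
  rw [eq_top_iff]
  intro g _
  -- strong induction on ν (lower-left entry)
  suffices H : ∀ n : ℕ, ∀ g : SpecialLinearGroup (Fin 2) A, ν (g.1 1 0) ≤ n →
      g ∈ elemSubgroup A from H _ g le_rfl
  intro n
  induction n using Nat.strong_induction_on with
  | _ n ih =>
    intro g hn
    by_cases hc : g.1 1 0 = 0
    · exact mem_of_lower_left_zero g hc
    · obtain ⟨k, hk⟩ := hdiv (g.1 0 0) (g.1 1 0) hc
      -- g₁ = uMat (-k) * g
      obtain ⟨e00, e01, e10, e11⟩ := uMat_mul_entries (-k) g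
      apply mem_of_uMat_mul_mem (x := -k)
      set g₁ := uMat (-k) * g with hg₁
      have ha₁ : g₁.1 0 0 = g.1 0 0 - k * g.1 1 0 := by rw [e00]; ring
      by_cases ha : g₁.1 0 0 = 0
      · -- lower-left entry of g₁ is a unit
        have hdet := det_eq g₁
        rw [ha, zero_mul, zero_sub] at hdet
        -- g₂ = uMat (-b₁) * g₁ has upper-left entry 1
        obtain ⟨f00, f01, f10, f11⟩ := uMat_mul_entries (-(g₁.1 0 1)) g₁
        apply mem_of_uMat_mul_mem (x := -(g₁.1 0 1))
        set g₂ := uMat (-(g₁.1 0 1)) * g₁ with hg₂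
        have h200 : g₂.1 0 0 = 1 := by rw [f00, ha]; linear_combination hdet
        obtain ⟨h00, h01, h10, h11⟩ := lMat_mul_entries (-(g₂.1 1 0)) g₂
        apply mem_of_lMat_mul_mem (x := -(g₂.1 1 0))
        apply mem_of_lower_left_zero
        rw [h10, h200]; ring
      · obtain ⟨k', hk'⟩ := hdiv (g₁.1 1 0) (g₁.1 0 0) ha
        obtain ⟨h00, h01, h10, h11⟩ := lMat_mul_entries (-k') g₁
        apply mem_of_lMat_mul_mem (x := -k')
        have hlt : ν ((lMat (-k') * g₁).1 1 0) < n := by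
          have e : (lMat (-k') * g₁).1 1 0 = g₁.1 1 0 - k' * g₁.1 0 0 := by rw [h10]; ring
          rw [e]
          have h1 : ν (g₁.1 0 0) < ν (g.1 1 0) := by rw [ha₁]; exact hk
          have h2 : g₁.1 1 0 = g.1 1 0 := e10
          omega
        exact ih _ hlt _ le_rfl

end Fermat.Agent.S41.CSP.ElemGen
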