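import Mathlib

/-!
# S41 / (W2b) CSP: the ring `ℤ[1/q] ⊂ ℚ` (volunteer leaf, branch only; Mathlib only)

For ANY subring `R` of `ℚ` whose elements are exactly the `m / q ^ k` (`hR` below; e.g. helper10's
`Fermat.Agent.S41.Amalgam.Groups.A q` via `mem_A`), the type `↥R` has
* a Euclidean size function `nu x = |numerator of x|` with a division step (`division`);
* every element is `unit ^ 2 * integer` (`unit_sq`).
These are the two ring hypotheses of `GenericFinish.generic_finish`.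
-/

set_option autoImplicit false

namespace Fermat.Agent.S41.CSP.ZqModel

variable (R : Subring ℚ) (q : ℕ)

/-- the size function: absolute value of the numerator -/
def nu : ↥R → ℕ := fun x => (x : ℚ).num.natAbs

theorem natAbs_num_div_le (r : ℤ) (d : ℤ) (hd : d ≠ 0) :
    ((r : ℚ) / (d : ℚ)).num.natAbs ≤ r.natAbs := by
  by_cases hr : r = 0
  · subst hr; simp
  · have h1 : ((r : ℚ) / (d : ℚ)) = Rat.divInt r d := (Rat.divInt_eq_div r d).symm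
    rw [h1]
    have h2 : (Rat.divInt r d).num ∣ r := Rat.num_dvd r hd
    exact Nat.le_of_dvd (Int.natAbs_pos.mpr hr) (Int.natAbs_dvd_natAbs.mpr h2)

variable {R q}

/-- **Division step** for the size function `nu`. -/
theorem division (hq : q ≠ 0)
    (hR : ∀ x : ℚ, x ∈ R ↔ ∃ k : ℕ, ∃ m : ℤ, x * (q : ℚ) ^ k = m)
    (a b : ↥R) (hb : b ≠ 0) : ∃ k : ↥R, nu R (a - k * b) < nu R b := by
  have hq0 : (q : ℚ) ≠ 0 := by exact_mod_cast hq
  obtain ⟨f, a0, ha⟩ := (hR a).mp a.2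
  have hbq : (b : ℚ) ≠ 0 := fun h => hb (Subtype.ext h)
  have hbn : (b : ℚ).num ≠ 0 := Rat.num_ne_zero.mpr hbq
  set nb : ℤ := (b : ℚ).num with hnb
  set db : ℕ := (b : ℚ).den with hdb
  have hbdb : (b : ℚ) * (db : ℚ) = nb := Rat.mul_den_eq_num (b : ℚ)
  set k0 : ℤ := a0 / nb with hk0
  set r : ℤ := a0 % nb with hr
  have hdiv : a0 = nb * k0 + r := (Int.mul_ediv_add_emod a0 nb).symm
  have hr0 : 0 ≤ r := Int.emod_nonneg a0 hbn
  have hr1 : r < |nb| := Int.emod_lt_abs a0 hbn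
  have hqf : (q : ℚ) ^ f ≠ 0 := pow_ne_zero _ hq0
  -- the quotient
  have hkmem : ((k0 * db : ℤ) : ℚ) / (q : ℚ) ^ f ∈ R :=
    (hR _).mpr ⟨f, k0 * db, by field_simp⟩
  refine ⟨⟨_, hkmem⟩, ?_⟩
  have key : ((a - ⟨_, hkmem⟩ * b : ↥R) : ℚ) = (r : ℚ) / ((q ^ f : ℕ) : ℤ) := by
    have ha' : (a : ℚ) = (a0 : ℚ) / (q : ℚ) ^ f := by
      rw [eq_div_iff hqf]; exact ha
    push_cast
    rw [ha']
    have : (a0 : ℚ) = nb * k0 + r := by exact_mod_cast hdiv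
    rw [this]
    field_simp
    rw [← hbdb]
    ring
  unfold nu
  rw [key]
  have hqf' : ((q ^ f : ℕ) : ℤ) ≠ 0 := by
    have : q ^ f ≠ 0 := pow_ne_zero _ hq
    exact_mod_cast this
  calc ((r : ℚ) / ((q ^ f : ℕ) : ℤ)).num.natAbs ≤ r.natAbs := natAbs_num_div_le r _ hqf'
    _ < nb.natAbs := by
      have h1 : (r.natAbs : ℤ) = r := Int.natAbs_of_nonneg hr0
      have h2 : (nb.natAbs : ℤ) = |nb| := Int.natCast_natAbs nb
      have : (r.natAbs : ℤ) < (nb.natAbs : ℤ) := by rw [h1, h2]; exact hr1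
      exact_mod_cast this

/-- the unit `q ^ (-k)` of `R` -/
def qInvPow (hq : q ≠ 0)
    (hR : ∀ x : ℚ, x ∈ R ↔ ∃ k : ℕ, ∃ m : ℤ, x * (q : ℚ) ^ k = m) (k : ℕ) : (↥R)ˣ where
  val := ⟨((q : ℚ) ^ k)⁻¹, (hR _).mpr ⟨k, 1, by
    have hq0 : (q : ℚ) ≠ 0 := by exact_mod_cast hq
    have : (q : ℚ) ^ k ≠ 0 := pow_ne_zero _ hq0
    simp [this]⟩⟩
  inv := ⟨(q : ℚ) ^ k, (hR _).mpr ⟨0, (q : ℤ) ^ k, by simp⟩⟩
  val_inv := by
    have hq0 : (q : ℚ) ≠ 0 := by exact_mod_cast hq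
    have : (q : ℚ) ^ k ≠ 0 := pow_ne_zero _ hq0
    apply Subtype.ext
    simp [this]
  inv_val := by
    have hq0 : (q : ℚ) ≠ 0 := by exact_mod_cast hq
    have : (q : ℚ) ^ k ≠ 0 := pow_ne_zero _ hq0
    apply Subtype.ext
    simp [this]

/-- every element of `R` is `unit ^ 2 * integer` -/
theorem unit_sq (hq : q ≠ 0)
    (hR : ∀ x : ℚ, x ∈ R ↔ ∃ k : ℕ, ∃ m : ℤ, x * (q : ℚ) ^ k = m) (x : ↥R) :
    ∃ (t : (↥R)ˣ) (n : ℤ), x = (t : ↥R) ^ 2 * (n : ↥R) := by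
  have hq0 : (q : ℚ) ≠ 0 := by exact_mod_cast hq
  obtain ⟨k, m, hx⟩ := (hR x).mp x.2
  have hqk : (q : ℚ) ^ k ≠ 0 := pow_ne_zero _ hq0
  refine ⟨qInvPow hq hR k, m * (q : ℤ) ^ k, ?_⟩
  apply Subtype.ext
  simp only [qInvPow, Subring.coe_mul, Subring.coe_pow, Subring.coe_intCast]
  push_cast
  rw [← hx]
  field_simp

end Fermat.Agent.S41.CSP.ZqModel
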