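import Fermat.Agent.S41.CSP.CentralityAbstract

/-!
# S41 / (W2b): the unit hypothesis for `ℤ[1/q]`

`Zq q` is the subring `ℤ[1/q]` of `ℚ`.  For a prime `q` and a level `N` prime to `q` we prove
`UnitHyp (N : Zq q)` (see `CentralityAbstract.lean`).  The proof needs no lifting-the-exponent
lemma and no Dirichlet: with `a = unit * a0`, `L = a0 * N * q`, `t = q ^ (L!)` is `≡ 1` modulo
every `c ≤ L` prime to `q` (Euler + `φ(c) ∣ L!`); `B` := the `N`-primary part of `t - 1`;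
`b'' ≤ L` is chosen by CRT with `B * b'' ≡ b (mod a0)`, `b'' ≡ 1 (mod N q)`; `b1 = B * b''`
divides `t - 1` with cofactor prime to `N`; finally `t` is replaced by `t ^ m`.
-/

set_option autoImplicit false

namespace Fermat.Agent.S41.CSP


/-- split `T` into a part `B` built from primes dividing `N` and a part `T'` prime to `N` -/
theorem exists_primary_decomp (N : ℕ) : ∀ T : ℕ, 0 < T →
    ∃ B T' : ℕ, T = B * T' ∧ Nat.Coprime T' N ∧ ∀ p : ℕ, p.Prime → p ∣ B → p ∣ N := by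
  intro T
  induction T using Nat.strong_induction_on with
  | _ T ih =>
    intro hT
    by_cases hg : Nat.gcd T N = 1
    · exact ⟨1, T, by ring, hg, fun p hp h1 => absurd (Nat.dvd_one.1 h1) hp.ne_one⟩
    · set g := Nat.gcd T N with hgdef
      have hgT : g ∣ T := Nat.gcd_dvd_left T N
      have hgN : g ∣ N := Nat.gcd_dvd_right T N
      have hgpos : 0 < g := Nat.gcd_pos_of_pos_left N hT
      have hg2 : 2 ≤ g := by omega
      obtain ⟨T1, hT1⟩ := hgT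
      have hT1pos : 0 < T1 := by
        rcases Nat.eq_zero_or_pos T1 with h | h
        · rw [h, mul_zero] at hT1; omega
        · exact h
      have hlt : T1 < T := by
        rw [hT1]; nlinarith
      obtain ⟨B1, T', hBT, hcop, hpr⟩ := ih T1 hlt hT1pos
      refine ⟨g * B1, T', by rw [hT1, hBT]; ring, hcop, ?_⟩
      intro p hp hpd
      rcases (Nat.Prime.dvd_mul hp).1 hpd with h | h
      · exact dvd_trans h hgN
      · exact hpr p hp h

/-- Euler + factorial: every `c ≤ L` prime to `q` divides `q ^ L! - 1` -/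
theorem dvd_pow_factorial_sub_one {q L c : ℕ} (hc : 0 < c) (hcL : c ≤ L) (hcq : c.Coprime q) :
    (c : ℤ) ∣ (q : ℤ) ^ L.factorial - 1 := by
  have h1 : q ^ Nat.totient c ≡ 1 [MOD c] := Nat.ModEq.pow_totient hcq.symm
  have h2 : Nat.totient c ∣ L.factorial :=
    Nat.dvd_factorial (Nat.totient_pos.2 hc) (le_trans (Nat.totient_le c) hcL)
  obtain ⟨j, hj⟩ := h2
  have h3 : q ^ L.factorial ≡ 1 [MOD c] := by
    rw [hj, pow_mul]
    have := h1.pow j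
    rwa [one_pow] at this
  have h4 := (Nat.modEq_iff_dvd.1 h3.symm)
  push_cast at h4
  exact h4


/-- geometric-sum step: `(T+1)^m - 1 = T * S` with `S ≡ m (mod N)` when `N ∣ T` -/
theorem exists_geom (N T : ℤ) (hNT : N ∣ T) : ∀ m : ℕ, ∃ S : ℤ, (T + 1) ^ m - 1 = T * S ∧
    N ∣ S - m := by
  intro m
  induction m with
  | zero => exact ⟨0, by simp, by simp⟩
  | succ m ih =>
    obtain ⟨S, hS, hSm⟩ := ih
    refine ⟨(T + 1) * S + 1, ?_, ?_⟩
    · rw [pow_succ]; linear_combination (T + 1) * hS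
    · have : (T + 1) * S + 1 - ((m + 1 : ℕ) : ℤ) = T * S + (S - m) := by push_cast; ring
      rw [this]
      exact dvd_add (Dvd.dvd.mul_right hNT S) hSm

theorem key_nat {q N a0 : ℕ} (hq : q.Prime) (hN : 0 < N) (hNq : N.Coprime q) (ha0 : 0 < a0)
    (ha0q : a0.Coprime q) (ha0N : a0.Coprime N) (β σ : ℤ) (hβN : (N : ℤ) ∣ β) :
    ∃ (b1 y : ℤ) (E : ℕ), 0 < E ∧ (N : ℤ) ∣ b1 ∧ ((N : ℤ) * a0) ∣ b1 - β ∧
      ((N : ℤ) * a0) ∣ (q : ℤ) ^ E - 1 ∧ (q : ℤ) ^ E - 1 = y * b1 ∧ (N : ℤ) ∣ y - σ := by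
  have hq2 : 2 ≤ q := hq.two_le
  set L : ℕ := a0 * N * q with hL
  have hLpos : 0 < L := by positivity
  set E0 : ℕ := L.factorial with hE0
  have hE0pos : 0 < E0 := Nat.factorial_pos L
  -- T = q^E0 - 1 as a natural number
  have hpow : 2 ≤ q ^ E0 := by
    calc 2 ≤ q := hq2
      _ = q ^ 1 := (pow_one q).symm
      _ ≤ q ^ E0 := Nat.pow_le_pow_right (by omega) hE0pos
  set Tn : ℕ := q ^ E0 - 1 with hTn
  have hTnpos : 0 < Tn := by omega
  have hTcast : ((Tn : ℕ) : ℤ) = (q : ℤ) ^ E0 - 1 := by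
    rw [hTn, Nat.cast_sub (by omega)]; push_cast; ring
  obtain ⟨B, T', hBT, hcop, hpr⟩ := exists_primary_decomp N Tn hTnpos
  -- basic divisibilities
  have hNL : N ≤ L := by
    rw [hL]; nlinarith [Nat.mul_le_mul ha0 hN, hq.pos]
  have ha0L : a0 ≤ L := by
    rw [hL]; nlinarith [Nat.mul_le_mul hN ha0, hq.pos]
  have hNT : (N : ℤ) ∣ (Tn : ℤ) := by
    rw [hTcast]; exact dvd_pow_factorial_sub_one hN hNL hNq
  have ha0T : (a0 : ℤ) ∣ (Tn : ℤ) := by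
    rw [hTcast]; exact dvd_pow_factorial_sub_one ha0 ha0L ha0q
  have hNB : N ∣ B := by
    have h1 : N ∣ B * T' := by
      rw [← hBT]; exact Int.natCast_dvd_natCast.1 hNT
    exact Nat.Coprime.dvd_of_dvd_mul_right hcop.symm h1
  -- B is prime to a0
  have hBa0 : Nat.Coprime B a0 := by
    refine Nat.coprime_of_dvd ?_
    intro k hk hkB hka
    have hkN : k ∣ N := hpr k hk hkB
    have : k ∣ Nat.gcd a0 N := Nat.dvd_gcd hka hkN
    rw [ha0N] at this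
    exact hk.ne_one (Nat.dvd_one.1 this)
  obtain ⟨u, v, huv⟩ := Nat.isCoprime_iff_coprime.2 hBa0
  set r1 : ℤ := u * β with hr1
  -- CRT for the moduli a0 and N*q
  have hcrt : Nat.Coprime a0 (N * q) := Nat.Coprime.mul_right ha0N ha0q
  obtain ⟨x, yy, hxy⟩ := Nat.isCoprime_iff_coprime.2 hcrt
  set k0 : ℤ := r1 * (yy * ((N * q : ℕ) : ℤ)) + x * (a0 : ℤ) with hk0
  set b2 : ℤ := k0 % (L : ℤ) with hb2
  have hLz : (L : ℤ) ≠ 0 := by exact_mod_cast hLpos.ne'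
  have hb2nn : 0 ≤ b2 := Int.emod_nonneg _ hLz
  have hb2lt : b2 < (L : ℤ) := Int.emod_lt_of_pos _ (by exact_mod_cast hLpos)
  have hk0b2 : k0 - b2 = (L : ℤ) * (k0 / (L : ℤ)) := by
    have := Int.emod_add_mul_ediv k0 (L : ℤ)
    rw [hb2]; linarith
  have hLcast : (L : ℤ) = (a0 : ℤ) * ((N * q : ℕ) : ℤ) := by
    rw [hL]; push_cast; ring
  have hb2a0 : (a0 : ℤ) ∣ b2 - r1 := by
    refine ⟨-((N * q : ℕ) : ℤ) * (k0 / (L : ℤ)) + (x - r1 * x), ?_⟩
    have e1 : b2 - r1 = -(k0 - b2) + (k0 - r1) := by ring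
    rw [e1, hk0b2, hLcast, hk0]
    linear_combination r1 * hxy
  have hb2Nq : ((N * q : ℕ) : ℤ) ∣ b2 - 1 := by
    refine ⟨-(a0 : ℤ) * (k0 / (L : ℤ)) + yy * (r1 - 1), ?_⟩
    have e1 : b2 - 1 = -(k0 - b2) + (k0 - 1) := by ring
    rw [e1, hk0b2, hLcast, hk0]
    linear_combination (1 : ℤ) * hxy
  have hNq2 : 2 ≤ N * q := by nlinarith
  have hb2ne : b2 ≠ 0 := by
    intro h0
    rw [h0] at hb2Nq
    have h1 : ((N * q : ℕ) : ℤ) ∣ 1 := by
      have := (dvd_neg).2 hb2Nq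
      simpa using this
    have h2 : (N * q : ℕ) ∣ 1 := by exact_mod_cast h1
    have := Nat.le_of_dvd one_pos h2
    omega
  have hb2pos : 0 < b2 := lt_of_le_of_ne hb2nn (Ne.symm hb2ne)
  set b2n : ℕ := b2.toNat with hb2n
  have hb2cast : ((b2n : ℕ) : ℤ) = b2 := Int.toNat_of_nonneg hb2nn
  have hb2npos : 0 < b2n := by
    have : (0 : ℤ) < (b2n : ℤ) := by rw [hb2cast]; exact hb2pos
    exact_mod_cast this
  have hb2nL : b2n ≤ L := by
    have : ((b2n : ℕ) : ℤ) < (L : ℤ) := by rw [hb2cast]; exact hb2lt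
    have : b2n < L := by exact_mod_cast this
    omega
  -- b2 is prime to q and to N
  obtain ⟨jj, hjj⟩ := hb2Nq
  have hb2q : Nat.Coprime b2n q := by
    apply Nat.isCoprime_iff_coprime.1
    refine ⟨1, -((N : ℤ) * jj), ?_⟩
    rw [hb2cast]; push_cast at hjj; linear_combination hjj
  have hb2N : Nat.Coprime b2n N := by
    apply Nat.isCoprime_iff_coprime.1
    refine ⟨1, -((q : ℤ) * jj), ?_⟩
    rw [hb2cast]; push_cast at hjj; linear_combination hjj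
  have hb2T : b2n ∣ Tn := by
    have : ((b2n : ℕ) : ℤ) ∣ (Tn : ℤ) := by
      rw [hTcast]; exact dvd_pow_factorial_sub_one hb2npos hb2nL hb2q
    exact Int.natCast_dvd_natCast.1 this
  have hb2B : Nat.Coprime b2n B := by
    refine Nat.coprime_of_dvd ?_
    intro k hk hkb hkB
    have hkN : k ∣ N := hpr k hk hkB
    have : k ∣ Nat.gcd b2n N := Nat.dvd_gcd hkb hkN
    rw [hb2N] at this
    exact hk.ne_one (Nat.dvd_one.1 this)
  have hb2T' : b2n ∣ T' := by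
    rw [hBT] at hb2T
    exact Nat.Coprime.dvd_of_dvd_mul_left hb2B hb2T
  obtain ⟨y0, hy0⟩ := hb2T'
  have hy0N : Nat.Coprime y0 N :=
    Nat.Coprime.coprime_dvd_left (Dvd.intro_left b2n hy0.symm) hcop
  obtain ⟨y', v', hyv⟩ := Nat.isCoprime_iff_coprime.2 hy0N
  -- the exponent multiplier m
  have hNz : (N : ℤ) ≠ 0 := by exact_mod_cast hN.ne'
  set m0 : ℤ := (y' * σ) % (N : ℤ) with hm0
  have hm0nn : 0 ≤ m0 := Int.emod_nonneg _ hNz
  have hm0d : y' * σ - m0 = (N : ℤ) * ((y' * σ) / (N : ℤ)) := by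
    have := Int.emod_add_mul_ediv (y' * σ) (N : ℤ)
    rw [hm0]; linarith
  set m : ℕ := m0.toNat + N with hm
  have hmcast : ((m : ℕ) : ℤ) = m0 + N := by
    rw [hm]; push_cast; rw [Int.toNat_of_nonneg hm0nn]
  have hmpos : 0 < m := by omega
  obtain ⟨S, hS, hSm⟩ := exists_geom (N : ℤ) (Tn : ℤ) hNT m
  obtain ⟨w1, hw1⟩ := hSm
  have hNa0 : IsCoprime (N : ℤ) (a0 : ℤ) := Nat.isCoprime_iff_coprime.2 ha0N.symm
  have hNa0T : (N : ℤ) * (a0 : ℤ) ∣ (Tn : ℤ) := hNa0.mul_dvd hNT ha0T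
  have hqE : (q : ℤ) ^ (E0 * m) - 1 = (Tn : ℤ) * S := by
    rw [pow_mul, ← hS, hTcast]; ring
  have hTfac : (Tn : ℤ) = (B : ℤ) * ((b2n : ℤ) * (y0 : ℤ)) := by
    rw [hBT, hy0]; push_cast; ring
  obtain ⟨nb, hnb⟩ := hNB
  obtain ⟨a1, ha1⟩ := hb2a0
  obtain ⟨β1, hβ1⟩ := hβN
  refine ⟨(B : ℤ) * b2, (y0 : ℤ) * S, E0 * m, Nat.mul_pos hE0pos hmpos, ?_, ?_, ?_, ?_, ?_⟩
  · exact ⟨(nb : ℤ) * b2, by rw [hnb]; push_cast; ring⟩
  · apply hNa0.mul_dvd
    · exact ⟨(nb : ℤ) * b2 - β1, by rw [hnb, hβ1]; push_cast; ring⟩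
    · refine ⟨(B : ℤ) * a1 - β * v, ?_⟩
      have e : (B : ℤ) * b2 - β = (B : ℤ) * (b2 - r1) + β * (u * (B : ℤ) - 1) := by
        rw [hr1]; ring
      rw [e, ha1]
      linear_combination β * huv
  · rw [hqE]; exact Dvd.dvd.mul_right hNa0T S
  · rw [hqE, hTfac, hb2cast]; ring
  · refine ⟨(y0 : ℤ) * w1 + (y0 : ℤ) * (1 - (y' * σ) / (N : ℤ)) - σ * v', ?_⟩
    have e : (y0 : ℤ) * S - σ = (y0 : ℤ) * (S - m) + (y0 : ℤ) * ((m : ℤ) - y' * σ)
        + σ * (y' * (y0 : ℤ) - 1) := by ring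
    rw [e, hw1, hmcast]
    linear_combination (-(y0 : ℤ)) * hm0d + σ * hyv


/-- the ring `ℤ[1/q]` as a subring of `ℚ` -/
def Zq (q : ℕ) : Subring ℚ where
  carrier := {x | ∃ (k : ℕ) (n : ℤ), x * (q : ℚ) ^ k = n}
  mul_mem' := by
    rintro x y ⟨k, n, hx⟩ ⟨j, m, hy⟩
    refine ⟨k + j, n * m, ?_⟩
    push_cast
    rw [← hx, ← hy, pow_add]; ring
  one_mem' := ⟨0, 1, by simp⟩
  add_mem' := by
    rintro x y ⟨k, n, hx⟩ ⟨j, m, hy⟩
    refine ⟨k + j, n * (q : ℤ) ^ j + m * (q : ℤ) ^ k, ?_⟩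
    push_cast
    rw [← hx, ← hy, pow_add]; ring
  zero_mem' := ⟨0, 0, by simp⟩
  neg_mem' := by
    rintro x ⟨k, n, hx⟩
    exact ⟨k, -n, by push_cast; rw [← hx]; ring⟩

theorem mem_Zq {q : ℕ} {x : ℚ} : x ∈ Zq q ↔ ∃ (k : ℕ) (n : ℤ), x * (q : ℚ) ^ k = n := Iff.rfl

/-- `1/q` as an element of `ℤ[1/q]` -/
def qinv (q : ℕ) : Zq q := ⟨(q : ℚ)⁻¹, by
  rcases Nat.eq_zero_or_pos q with h | h
  · exact ⟨0, 0, by simp [h]⟩
  · exact ⟨1, 1, by
      have : (q : ℚ) ≠ 0 := by exact_mod_cast h.ne'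
      field_simp; simp⟩⟩

theorem q_mul_qinv {q : ℕ} (hq : q ≠ 0) : ((q : ℕ) : Zq q) * qinv q = 1 := by
  apply Subtype.ext
  have : (q : ℚ) ≠ 0 := by exact_mod_cast hq
  simp [qinv, this]

/-- Step A: integer representatives modulo an integer prime to `q` -/
theorem exists_int_rep {q m : ℕ} (hmq : m.Coprime q) (x : Zq q) :
    ∃ r : ℤ, ((m : ℕ) : Zq q) ∣ x - (r : Zq q) := by
  obtain ⟨k, n, hx⟩ := x.2
  obtain ⟨q', j, hqj⟩ := Nat.isCoprime_iff_coprime.2 hmq.symm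
  -- q' * q + j * m = 1
  have h1 : (m : ℤ) ∣ (q' * (q : ℤ)) ^ k - 1 := by
    have h2 : (q' * (q : ℤ) - 1) ∣ (q' * (q : ℤ)) ^ k - 1 := by
      have := sub_dvd_pow_sub_pow (q' * (q : ℤ)) 1 k
      rwa [one_pow] at this
    refine dvd_trans ⟨-j, ?_⟩ h2
    linear_combination hqj
  obtain ⟨J, hJ⟩ := h1
  refine ⟨n * q' ^ k, ⟨x * ((-J : ℤ) : Zq q), ?_⟩⟩
  apply Subtype.ext
  have hJq : ((q' : ℚ) * (q : ℚ)) ^ k - 1 = (m : ℚ) * (J : ℚ) := by exact_mod_cast hJ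
  push_cast
  rw [← hx]
  linear_combination (-(x : ℚ)) * hJq

/-- Step B: divisibility of integers can be tested in `ℤ[1/q]` for moduli prime to `q` -/
theorem int_dvd_of_dvd {q : ℕ} {m n : ℤ} (hm : IsCoprime m (q : ℤ))
    (h : ((m : ℤ) : Zq q) ∣ ((n : ℤ) : Zq q)) : m ∣ n := by
  obtain ⟨y, hy⟩ := h
  obtain ⟨k, y', hyk⟩ := y.2
  have h1 : (n : ℚ) = (m : ℚ) * (y : ℚ) := by
    have := congrArg (Subtype.val) hy
    simpa using this
  have h2 : (n : ℚ) * (q : ℚ) ^ k = (m : ℚ) * (y' : ℚ) := by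
    rw [h1, ← hyk]; ring
  have h3 : n * (q : ℤ) ^ k = m * y' := by exact_mod_cast h2
  have h4 : m ∣ n * (q : ℤ) ^ k := ⟨y', h3⟩
  exact (IsCoprime.pow_right hm).dvd_of_dvd_mul_right h4

theorem nat_dvd_of_dvd {q m n : ℕ} (hm : m.Coprime q)
    (h : ((m : ℕ) : Zq q) ∣ ((n : ℕ) : Zq q)) : m ∣ n := by
  have h' : ((m : ℤ) : Zq q) ∣ (((n : ℤ)) : Zq q) := by
    simpa using h
  have := int_dvd_of_dvd (Nat.isCoprime_iff_coprime.2 hm) h'
  exact_mod_cast this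

/-- Step C: a nonzero element is a unit times a positive integer prime to `q` -/
theorem exists_unit_mul_nat {q : ℕ} (hq : q.Prime) {a : Zq q} (ha : a ≠ 0) :
    ∃ (a0 : ℕ) (u ui : Zq q), 0 < a0 ∧ a0.Coprime q ∧ u * ui = 1 ∧ a = u * ((a0 : ℕ) : Zq q) := by
  obtain ⟨k, n, hx⟩ := a.2
  have hq0 : (q : ℚ) ≠ 0 := by exact_mod_cast hq.ne_zero
  have hn : n ≠ 0 := by
    rintro rfl
    apply ha
    apply Subtype.ext
    have : (a : ℚ) * (q : ℚ) ^ k = 0 := by simpa using hx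
    rcases mul_eq_zero.1 this with h | h
    · simpa using h
    · exact absurd h (pow_ne_zero _ hq0)
  have hnat : n.natAbs ≠ 0 := Int.natAbs_ne_zero.2 hn
  obtain ⟨e, a0, ha0, hna⟩ := Nat.exists_eq_pow_mul_and_not_dvd hnat q hq.ne_one
  have ha0pos : 0 < a0 := by
    rcases Nat.eq_zero_or_pos a0 with h | h
    · rw [h, mul_zero] at hna; exact absurd hna hnat
    · exact h
  have hcop : a0.Coprime q := ((Nat.Prime.coprime_iff_not_dvd hq).2 ha0).symm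
  have hqq := q_mul_qinv hq.ne_zero
  -- the sign
  obtain ⟨ε, hε, hnε⟩ : ∃ ε : ℤ, ε * ε = 1 ∧ n = ε * (n.natAbs : ℤ) := by
    rcases le_or_gt 0 n with h | h
    · exact ⟨1, by ring, by rw [one_mul]; exact (Int.natAbs_of_nonneg h).symm⟩
    · refine ⟨-1, by ring, ?_⟩
      have := Int.ofNat_natAbs_of_nonpos h.le
      linarith
  refine ⟨a0, (ε : Zq q) * ((q : ℕ) : Zq q) ^ e * (qinv q) ^ k,
    (ε : Zq q) * (qinv q) ^ e * ((q : ℕ) : Zq q) ^ k, ha0pos, hcop, ?_, ?_⟩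
  · have h1 : ((ε : ℤ) : Zq q) * (ε : Zq q) = 1 := by exact_mod_cast congrArg (Int.cast : ℤ → Zq q) hε
    calc (ε : Zq q) * ((q : ℕ) : Zq q) ^ e * (qinv q) ^ k *
          ((ε : Zq q) * (qinv q) ^ e * ((q : ℕ) : Zq q) ^ k)
        = ((ε : Zq q) * (ε : Zq q)) * (((q : ℕ) : Zq q) * qinv q) ^ e *
            (((q : ℕ) : Zq q) * qinv q) ^ k := by ring
      _ = 1 := by rw [h1, hqq]; simp
  · apply Subtype.ext
    have hnq : (n : ℚ) = (ε : ℚ) * ((q : ℚ) ^ e * (a0 : ℚ)) := by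
      have : (n : ℤ) = ε * ((q : ℤ) ^ e * (a0 : ℤ)) := by
        rw [hnε]; congr 1; exact_mod_cast hna
      exact_mod_cast this
    have hax : (a : ℚ) = (n : ℚ) * ((q : ℚ)⁻¹) ^ k := by
      rw [← hx, mul_assoc, ← mul_pow, mul_inv_cancel₀ hq0, one_pow, mul_one]
    simp only [qinv, Subring.coe_mul, Subring.coe_pow, Subring.coe_intCast, Subring.coe_natCast]
    rw [hax, hnq]; ring


/-- **The unit hypothesis holds for `ℤ[1/q]`** (`q` prime, level `N` prime to `q`). -/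
theorem unitHyp_Zq {q : ℕ} (hq : q.Prime) {N : ℕ} (hN : 0 < N) (hNq : N.Coprime q) :
    UnitHyp (((N : ℕ) : Zq q)) := by
  intro γ hγ s
  obtain ⟨ha1, hbN, -, -⟩ := hγ
  set a : Zq q := γ.1 0 0 with ha
  set b : Zq q := γ.1 0 1 with hb
  by_cases hN1 : N = 1
  · subst hN1
    refine ⟨b, 0, 1, 1, by ring, ?_, ?_, ?_, by ring, ?_⟩ <;> simp
  have hN2 : 2 ≤ N := by omega
  -- a ≠ 0
  have ha0 : a ≠ 0 := by
    intro h0
    rw [h0, zero_sub] at ha1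
    have h1 : ((N : ℕ) : Zq q) ∣ ((1 : ℕ) : Zq q) := by
      simpa using (dvd_neg).1 ha1
    have h2 := nat_dvd_of_dvd hNq h1
    have := Nat.le_of_dvd one_pos h2
    omega
  obtain ⟨a0, u, ui, ha0pos, ha0q, huui, hau⟩ := exists_unit_mul_nat hq ha0
  -- a0 is prime to N
  have ha0N : a0.Coprime N := by
    have hga : ((Nat.gcd a0 N : ℕ) : Zq q) ∣ a := by
      obtain ⟨c, hc⟩ := Nat.gcd_dvd_left a0 N
      refine ⟨u * (c : Zq q), ?_⟩
      rw [hau]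
      have : ((a0 : ℕ) : Zq q) = ((Nat.gcd a0 N : ℕ) : Zq q) * (c : Zq q) := by
        exact_mod_cast congrArg (Nat.cast : ℕ → Zq q) hc
      rw [this]; ring
    have hgN : ((Nat.gcd a0 N : ℕ) : Zq q) ∣ ((N : ℕ) : Zq q) := by
      obtain ⟨c, hc⟩ := Nat.gcd_dvd_right a0 N
      exact ⟨(c : Zq q), by exact_mod_cast congrArg (Nat.cast : ℕ → Zq q) hc⟩
    have hg1 : ((Nat.gcd a0 N : ℕ) : Zq q) ∣ ((1 : ℕ) : Zq q) := by
      have h := dvd_sub hga (dvd_trans hgN ha1)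
      simpa using h
    have hgq : (Nat.gcd a0 N).Coprime q :=
      Nat.Coprime.coprime_dvd_left (Nat.gcd_dvd_right a0 N) hNq
    exact Nat.dvd_one.1 (nat_dvd_of_dvd hgq hg1)
  -- integer representatives
  have hmq : (N * a0).Coprime q := Nat.Coprime.mul_left hNq ha0q
  obtain ⟨β, hβ⟩ := exists_int_rep hmq b
  obtain ⟨σ, hσ⟩ := exists_int_rep hNq s
  have hβN : (N : ℤ) ∣ β := by
    apply int_dvd_of_dvd (q := q) (Nat.isCoprime_iff_coprime.2 hNq)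
    have h1 : ((N : ℕ) : Zq q) ∣ b - (β : Zq q) :=
      dvd_trans ⟨((a0 : ℕ) : Zq q), by push_cast; ring⟩ hβ
    have h2 := dvd_sub hbN h1
    simpa using h2
  obtain ⟨b1, y, E, -, h1, h2, h3, h4, h5⟩ := key_nat hq hN hNq ha0pos ha0q ha0N β σ hβN
  have unitMul : ∀ X : Zq q, ((N * a0 : ℕ) : Zq q) ∣ X → ((N : ℕ) : Zq q) * a ∣ X := by
    rintro X ⟨z, hz⟩
    refine ⟨ui * z, ?_⟩
    rw [hz, hau]; push_cast
    linear_combination (-(((N : ℕ) : Zq q) * ((a0 : ℕ) : Zq q) * z)) * huui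
  refine ⟨(b1 : Zq q), (y : Zq q), ((q : ℕ) : Zq q) ^ E, (qinv q) ^ E, ?_, ?_, ?_, ?_, ?_, ?_⟩
  · rw [← mul_pow, q_mul_qinv hq.ne_zero, one_pow]
  · obtain ⟨c, hc⟩ := h1
    exact ⟨(c : Zq q), by rw [hc]; push_cast; ring⟩
  · apply unitMul
    obtain ⟨c, hc⟩ := h2
    have e : (b1 : Zq q) - b = ((b1 - β : ℤ) : Zq q) - (b - (β : Zq q)) := by push_cast; ring
    rw [e]
    exact dvd_sub ⟨(c : Zq q), by rw [hc]; push_cast; ring⟩ hβ
  · apply unitMul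
    obtain ⟨c, hc⟩ := h3
    refine ⟨(c : Zq q), ?_⟩
    have := congrArg (Int.cast : ℤ → Zq q) hc
    push_cast at this
    rw [this]; push_cast; ring
  · have := congrArg (Int.cast : ℤ → Zq q) h4
    push_cast at this
    exact this
  · obtain ⟨c, hc⟩ := h5
    obtain ⟨c1, hc1⟩ := ha1
    obtain ⟨c2, hc2⟩ := hσ
    refine ⟨(y : Zq q) * c1 + (c : Zq q) - c2, ?_⟩
    have hc' : (y : Zq q) - (σ : Zq q) = ((N : ℕ) : Zq q) * (c : Zq q) := by
      have := congrArg (Int.cast : ℤ → Zq q) hc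
      push_cast at this
      exact this
    linear_combination (y : Zq q) * hc1 + hc' - hc2

end Fermat.Agent.S41.CSP
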